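import Fermat.Agent.Gordan.Forms
import Mathlib.Algebra.Field.Basic

/-!
# Semi-invariants

With a linear form `u x + w y` added to a system, setting `u = 0`, `w = 1` sends invariants to
semi-invariants, and every semi-invariant `p` of weight `e` comes from the invariant
`∑ (-1) ^ r / r! * (U ^ r p) u ^ r w ^ (e - r)` (Roberts).
-/

set_option autoImplicit false

noncomputable section

open MvPolynomial

namespace FA.Gordan

open FA.CayleySylvester (lower raise lower_X raise_X)

variable {ι : Type*} {k : Type*} [Field k]

/-- The degrees with a linear form added. -/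
def withLine (d : ι → ℕ) : Option ι → ℕ :=
  fun o => o.elim 1 d

variable (d : ι → ℕ)

/-- The coefficients of the system inside the extended one. -/
def embSys : MvPolynomial (Var d) k →ₐ[k] MvPolynomial (Var (withLine d)) k :=
  rename fun v => (⟨some v.1, v.2⟩ : Var (withLine d))

variable (k) in
/-- The coefficient `u` of `x` in the linear form. -/
def lineX : MvPolynomial (Var (withLine d)) k :=
  X ⟨none, (0 : Fin 2)⟩

variable (k) in
/-- The coefficient `w` of `y` in the linear form. -/
def lineY : MvPolynomial (Var (withLine d)) k :=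
  X ⟨none, (1 : Fin 2)⟩

/-- Setting the linear form to `y`. -/
def atY : MvPolynomial (Var (withLine d)) k →ₐ[k] MvPolynomial (Var d) k :=
  aeval fun v => match v with
    | ⟨none, i⟩ => if (i : ℕ) = 0 then 0 else 1
    | ⟨some a, i⟩ => X ⟨a, i⟩

theorem atY_embSys (p : MvPolynomial (Var d) k) : atY d (embSys d p) = p := by
  rw [atY, embSys, aeval_rename]
  exact aeval_X_left_apply p

theorem atY_lineX : atY d (lineX k d) = 0 := by
  rw [atY, lineX, aeval_X]
  exact if_pos rfl

theorem atY_lineY : atY d (lineY k d) = 1 := by
  rw [atY, lineY, aeval_X]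
  exact if_neg Nat.one_ne_zero

theorem sysLower_embSys (p : MvPolynomial (Var d) k) :
    sysLower k (withLine d) (embSys d p) = embSys d (sysLower k d p) := by
  induction p using MvPolynomial.induction_on with
  | C a => simp [embSys]
  | add p q hp hq => simp only [map_add, hp, hq]
  | mul_X p v hp =>
    have hX : sysLower k (withLine d) (embSys d (X v)) = embSys d (sysLower k d (X v)) := by
      rw [embSys, rename_X, sysLower, mkDerivation_X, sysLower, mkDerivation_X, rename_rename]
      rfl
    rw [map_mul, Derivation.leibniz, Derivation.leibniz, hp, hX, smul_eq_mul, smul_eq_mul,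
      smul_eq_mul, smul_eq_mul, map_add, map_mul, map_mul]

theorem sysRaise_embSys (p : MvPolynomial (Var d) k) :
    sysRaise k (withLine d) (embSys d p) = embSys d (sysRaise k d p) := by
  induction p using MvPolynomial.induction_on with
  | C a => simp [embSys]
  | add p q hp hq => simp only [map_add, hp, hq]
  | mul_X p v hp =>
    have hX : sysRaise k (withLine d) (embSys d (X v)) = embSys d (sysRaise k d (X v)) := by
      rw [embSys, rename_X, sysRaise, mkDerivation_X, sysRaise, mkDerivation_X, rename_rename]
      rfl
    rw [map_mul, Derivation.leibniz, Derivation.leibniz, hp, hX, smul_eq_mul, smul_eq_mul,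
      smul_eq_mul, smul_eq_mul, map_add, map_mul, map_mul]

theorem sysLower_lineX : sysLower k (withLine d) (lineX k d) = 0 := by
  rw [lineX, sysLower, mkDerivation_X, lower_X]
  simp

theorem sysLower_lineY : sysLower k (withLine d) (lineY k d) = lineX k d := by
  rw [lineY, sysLower, mkDerivation_X, lower_X, if_neg (by simp), map_mul, rename_C, rename_X]
  simp [lineX, withLine, FA.CayleySylvester.prevIdx]
  exact (congrArg (· * _) C_1).trans (one_mul _)

theorem sysRaise_lineX : sysRaise k (withLine d) (lineX k d) = lineY k d := by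
  rw [lineX, sysRaise, mkDerivation_X, raise_X, dif_pos (by simp [withLine]), map_mul, rename_C,
    rename_X]
  simp [lineY, withLine]
  exact (congrArg (· * _) C_1).trans (one_mul _)

theorem sysRaise_lineY : sysRaise k (withLine d) (lineY k d) = 0 := by
  rw [lineY, sysRaise, mkDerivation_X, raise_X, dif_neg (by simp [withLine]), map_zero]

theorem sysLower_atY (P : MvPolynomial (Var (withLine d)) k) :
    sysLower k d (atY d P) = atY d (sysLower k (withLine d) P) := by
  induction P using MvPolynomial.induction_on with
  | C a => simp [atY]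
  | add p q hp hq => simp only [map_add, hp, hq]
  | mul_X p v hp =>
    have hX : sysLower k d (atY d (X v)) = atY d (sysLower k (withLine d) (X v)) := by
      obtain ⟨o, i⟩ := v
      cases o with
      | none =>
        rcases Fin.exists_fin_two.1 ⟨(i : Fin 2), rfl⟩ with h | h
        · obtain rfl : i = (0 : Fin 2) := h
          rw [← lineX, sysLower_lineX, map_zero, atY, lineX, aeval_X]
          simp
        · obtain rfl : i = (1 : Fin 2) := h
          rw [← lineY, sysLower_lineY, atY, lineY, lineX, aeval_X, aeval_X]
          simp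
      | some a =>
        have e : atY d (X (⟨some a, i⟩ : Var (withLine d))) =
            (X ⟨a, i⟩ : MvPolynomial (Var d) k) := by rw [atY, aeval_X]
        rw [e, show (X (⟨some a, i⟩ : Var (withLine d)) : MvPolynomial _ k) =
          embSys d (X ⟨a, i⟩) from
            (rename_X (fun v : Var d => (⟨some v.1, v.2⟩ : Var (withLine d))) ⟨a, i⟩).symm,
          sysLower_embSys, atY_embSys]
    rw [map_mul, Derivation.leibniz, Derivation.leibniz, hp, hX, smul_eq_mul, smul_eq_mul,
      smul_eq_mul, smul_eq_mul, map_add, map_mul, map_mul]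

variable [CharZero k] [Finite ι]

/-- **Roberts's theorem.** -/
theorem exists_invariant_of_semi {m : ℕ} {h : ℤ} {p : MvPolynomial (Var d) k}
    (hp : p ∈ space k (systemData k d).ω m h) (hDp : sysLower k d p = 0) :
    ∃ P ∈ (systemData k (withLine d)).invAlg, atY d P = p := by
  set A := systemData k d
  rcases lt_or_ge h 0 with hh | hh
  · exact ⟨0, zero_mem _, by rw [map_zero, A.D_injective hh hp hDp]⟩
  obtain ⟨e, rfl⟩ := Int.eq_ofNat_of_zero_le hh
  set q : ℕ → MvPolynomial (Var d) k := fun r => A.U^[r] p with hqdef
  have hq_succ : ∀ r : ℕ, A.U (q r) = q (r + 1) :=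
    fun r => (Function.iterate_succ_apply' _ _ _).symm
  have hq_mem : ∀ r : ℕ, q r ∈ space k A.ω m ((e : ℤ) - 2 * r) := fun r => by
    induction r with
    | zero => simpa [q] using hp
    | succ r ih =>
      rw [← hq_succ, show (e : ℤ) - 2 * (r + 1 : ℕ) = (e : ℤ) - 2 * r - 2 by push_cast; ring]
      exact A.U_mem ih
  have hq_D : ∀ r : ℕ, A.D (q (r + 1)) = C (((r : k) + 1) * ((e : k) - r)) * q r := fun r => by
    induction r with
    | zero =>
      have hb := A.bracket (hq_mem 0)
      rw [show A.D (q 0) = 0 from hDp, map_zero, sub_zero, hq_succ, smul_eq_C_mul] at hb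
      rw [hb]
      congr 2
      push_cast
      ring
    | succ r ih =>
      have hb := A.bracket (hq_mem (r + 1))
      rw [ih, hq_succ, sub_eq_iff_eq_add, Derivation.leibniz, derivation_C, smul_zero,
        add_zero, smul_eq_mul, hq_succ, smul_eq_C_mul, ← add_mul, ← C_add] at hb
      rw [hb]
      congr 2
      push_cast
      ring
  have hq_top : q (e + 1) = 0 :=
    A.D_injective (h := (e : ℤ) - 2 * (e + 1 : ℕ)) (by push_cast; omega) (hq_mem _)
      (by rw [hq_D, sub_self, mul_zero, C_0, zero_mul])
  set Q : ℕ → MvPolynomial (Var (withLine d)) k := fun r => embSys d (q r) with hQ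
  set u := lineX k d
  set w := lineY k d
  set a : ℕ → k := fun r => (-1) ^ r / r.factorial with ha
  have ha_succ : ∀ r : ℕ, a (r + 1) * ((r : k) + 1) = -a r := fun r => by
    have h1 : (r.factorial : k) ≠ 0 := Nat.cast_ne_zero.2 r.factorial_ne_zero
    have h2 : (r : k) + 1 ≠ 0 := Nat.cast_add_one_ne_zero r
    simp only [a, Nat.factorial_succ, pow_succ]
    push_cast
    field_simp
  refine ⟨∑ r ∈ Finset.range (e + 1), C (a r) * (Q r * (u ^ r * w ^ (e - r))), ⟨?_, ?_⟩, ?_⟩
  · show sysLower k (withLine d) _ = 0
    set T : ℕ → MvPolynomial (Var (withLine d)) k := fun r =>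
      C (a r * ((e - r : ℕ) : k)) * (Q r * (u ^ (r + 1) * w ^ (e - r - 1)))
    have hterm : ∀ r, sysLower k (withLine d) (C (a r) * (Q r * (u ^ r * w ^ (e - r)))) =
        T r + C (a r) * (embSys d (A.D (q r)) * (u ^ r * w ^ (e - r))) := fun r => by
      simp only [T, Q, u, w, Derivation.leibniz, Derivation.leibniz_pow, derivation_C,
        sysLower_embSys, sysLower_lineX, sysLower_lineY, smul_eq_mul, nsmul_eq_mul, C_mul,
        map_natCast, pow_succ, A, systemData]
      ring
    rw [map_sum, Finset.sum_congr rfl fun r _ => hterm r, Finset.sum_add_distrib,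
      Finset.sum_range_succ (f := T), Finset.sum_range_succ',
      show A.D (q 0) = 0 from hDp, map_zero, zero_mul, mul_zero, add_zero,
      Finset.sum_congr rfl fun r hr => show C (a (r + 1)) *
          (embSys d (A.D (q (r + 1))) * (u ^ (r + 1) * w ^ (e - (r + 1)))) = -T r by
        have hC : C (a (r + 1)) * C (((r : k) + 1) * ((e : k) - r)) =
            -(C (a r * ((e - r : ℕ) : k)) : MvPolynomial (Var (withLine d)) k) := by
          rw [← map_mul, ← mul_assoc, ha_succ, Nat.cast_sub (Finset.mem_range.1 hr).le, neg_mul,
            map_neg]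
        rw [hq_D, map_mul, embSys, rename_C, ← embSys, Nat.sub_add_eq]
        simp only [T, Q]
        linear_combination (embSys d (q r) * (u ^ (r + 1) * w ^ (e - r - 1))) * hC,
      Finset.sum_neg_distrib]
    simp [T]
  · show sysRaise k (withLine d) _ = 0
    set T : ℕ → MvPolynomial (Var (withLine d)) k := fun r =>
      C (a r) * (Q (r + 1) * (u ^ r * w ^ (e - r)))
    have hterm : ∀ r, sysRaise k (withLine d) (C (a r) * (Q r * (u ^ r * w ^ (e - r)))) =
        T r + C (a r * (r : k)) * (Q r * (u ^ (r - 1) * (w * w ^ (e - r)))) := fun r => by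
      rw [show T r = C (a r) * (embSys d (A.U (q r)) * (u ^ r * w ^ (e - r))) by
        simp only [T, Q, hq_succ]]
      simp only [Q, u, w, Derivation.leibniz, Derivation.leibniz_pow, derivation_C,
        sysRaise_embSys, sysRaise_lineX, sysRaise_lineY, smul_eq_mul, nsmul_eq_mul, C_mul,
        map_natCast, A, systemData]
      ring
    rw [map_sum, Finset.sum_congr rfl fun r _ => hterm r, Finset.sum_add_distrib,
      Finset.sum_range_succ' (f := fun r => C (a r * (r : k)) *
        (Q r * (u ^ (r - 1) * (w * w ^ (e - r))))),
      Finset.sum_range_succ (f := T),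
      Finset.sum_congr rfl fun r hr => show C (a (r + 1) * ((r + 1 : ℕ) : k)) *
          (Q (r + 1) * (u ^ (r + 1 - 1) * (w * w ^ (e - (r + 1))))) = -T r by
        rw [Nat.cast_succ, ha_succ, Nat.add_sub_cancel, ← pow_succ',
          show e - (r + 1) + 1 = e - r by have := Finset.mem_range.1 hr; omega, map_neg, neg_mul],
      Finset.sum_neg_distrib]
    simp [T, Q, hq_top]
  · rw [map_sum, Finset.sum_range_succ', Finset.sum_eq_zero fun r _ => ?_, zero_add]
    · simp only [map_mul, map_pow, Q, u, w, atY_embSys, atY_lineY, pow_zero, one_pow,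
        mul_one, a, Nat.factorial_zero, Nat.cast_one, div_one]
      rw [C_1, map_one, one_mul, mul_one]
      rfl
    · simp only [map_mul, map_pow, u, atY_lineX, pow_succ, mul_zero, zero_mul]

variable (k) in
/-- The semi-invariants of a system. -/
def semiAlg : Subalgebra k (MvPolynomial (Var d) k) where
  carrier := {p | sysLower k d p = 0}
  mul_mem' {p q} (hp : _ = _) (hq : _ = _) := by
    rw [Set.mem_ofPred_eq, Derivation.leibniz, hp, hq, smul_zero, smul_zero, add_zero]
  add_mem' {p q} (hp : _ = _) (hq : _ = _) := by
    rw [Set.mem_ofPred_eq, map_add, hp, hq, add_zero]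
  algebraMap_mem' r := Derivation.map_algebraMap _ r

/-- The semi-invariants are the images of the invariants. -/
theorem semiAlg_eq : semiAlg k d = (systemData k (withLine d)).invAlg.map (atY d) := by
  refine le_antisymm (fun p (hp : _ = _) => ?_) ?_
  · rw [← finsum_weightedHomogeneousComponent (degWt (systemData k d).ω) p]
    refine finsum_induction _ (zero_mem _) (fun x y hx hy => add_mem hx hy) fun ⟨m, h⟩ => ?_
    exact exists_invariant_of_semi d (weightedHomogeneousComponent_isWeightedHomogeneous _ _)
      ((systemData k d).D_component hp m h)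
  · rintro _ ⟨P, hP, rfl⟩
    show sysLower k d (atY d P) = 0
    rw [sysLower_atY, show sysLower k (withLine d) P = 0 from hP.1, map_zero]

/-- **Finiteness for semi-invariants.** -/
theorem semiAlg_fg : (semiAlg k d).FG := by
  rw [semiAlg_eq]
  exact (systemData k (withLine d)).invAlg_fg.map _

end FA.Gordan
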