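import Mathlib.RingTheory.MvPolynomial.WeightedHomogeneous
import Mathlib.Algebra.MvPolynomial.Derivation
import Mathlib.Algebra.Order.Antidiag.Finsupp
import Mathlib.LinearAlgebra.FiniteDimensional.Lemmas
import Mathlib.RingTheory.Polynomial.Basic
import Mathlib.RingTheory.Adjoin.FG
import Mathlib.Algebra.CharZero.Defs
import Mathlib.Tactic.LinearCombination

/-!
# Linear derivations forming an `sl₂`

Two derivations `D`, `U` of a polynomial ring send variables of weight `ω` to linear forms of weight
`ω + 2` and `ω - 2`, with `[D, U]` multiplication of a variable by its weight. In positive weight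
`D U + c` is injective, so in each degree weight `0` is the invariants plus the image of `U`. This
complement is kept by multiplication with invariants, so Hilbert's argument gives finite generation.
-/

set_option autoImplicit false

noncomputable section

open MvPolynomial

namespace FA.Gordan

/-- Degree and weight of the variables. -/
def degWt {σ : Type*} (ω : σ → ℤ) : σ → ℕ × ℤ :=
  fun v => (1, ω v)

/-- The forms of degree `m` and weight `h`. -/
abbrev space {σ : Type*} (k : Type*) [Field k] (ω : σ → ℤ) (m : ℕ) (h : ℤ) :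
    Submodule k (MvPolynomial σ k) :=
  weightedHomogeneousSubmodule k (degWt ω) (m, h)

/-- An `sl₂` of linear derivations. -/
structure Sl2Data (σ : Type*) (k : Type*) [Field k] where
  /-- The weights of the variables. -/
  ω : σ → ℤ
  /-- The raising derivation. -/
  D : Derivation k (MvPolynomial σ k) (MvPolynomial σ k)
  /-- The lowering derivation. -/
  U : Derivation k (MvPolynomial σ k) (MvPolynomial σ k)
  D_X : ∀ v, D (X v) ∈ space k ω 1 (ω v + 2)
  U_X : ∀ v, U (X v) ∈ space k ω 1 (ω v - 2)
  bracket_X : ∀ v, D (U (X v)) - U (D (X v)) = C (ω v : k) * X v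

variable {σ : Type*} {k : Type*} [Field k]

theorem mem_space_iff {ω : σ → ℤ} {m : ℕ} {h : ℤ} {p : MvPolynomial σ k} :
    p ∈ space k ω m h ↔ IsWeightedHomogeneous (degWt ω) p (m, h) :=
  Iff.rfl

/-- The weight of a monomial. -/
theorem weight_degWt (ω : σ → ℤ) (μ : σ →₀ ℕ) :
    Finsupp.weight (degWt ω) μ = (μ.degree, Finsupp.weight ω μ) := by
  induction μ using Finsupp.induction with
  | zero => simp only [map_zero]; rfl
  | single_add i e ν _ _ ih =>
    rw [map_add, map_add, map_add, ih, Finsupp.weight_single, Finsupp.weight_single,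
      Finsupp.degree_single]
    refine Prod.ext ?_ ?_ <;> simp [degWt]

/-- A derivation shifting the weights of variables shifts all weights. -/
theorem derivation_mem (ω : σ → ℤ) (D : Derivation k (MvPolynomial σ k) (MvPolynomial σ k))
    (s : ℤ) (hD : ∀ v, D (X v) ∈ space k ω 1 (ω v + s)) {m : ℕ} {h : ℤ} {p : MvPolynomial σ k}
    (hp : p ∈ space k ω m h) : D p ∈ space k ω m (h + s) := by
  rw [p.as_sum, map_sum]
  refine sum_mem fun μ hμ => ?_
  have hw := hp (mem_support_iff.1 hμ)
  rw [show D = mkDerivation k fun v => D (X v) from derivation_ext fun v => by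
    rw [mkDerivation_X], mkDerivation_monomial]
  refine Submodule.smul_mem _ _ (sum_mem fun v hv => ?_)
  dsimp only
  rw [smul_eq_mul]
  have e := (isWeightedHomogeneous_monomial (degWt ω) (μ - Finsupp.single v 1)
    ((μ v : ℕ) : k) rfl).mul (hD v)
  have hμv := congrArg (Finsupp.weight (degWt ω))
    (Finsupp.sub_add_single_one_cancel (Finsupp.mem_support_iff.1 hv))
  rw [map_add, Finsupp.weight_single, hw, one_smul] at hμv
  rw [mem_space_iff]
  convert! e using 1
  simp only [degWt, Prod.ext_iff, Prod.fst_add, Prod.snd_add] at hμv ⊢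
  omega

theorem component_mul_right (ω : σ → ℤ) {a : ℕ} {b : ℤ} {f : MvPolynomial σ k}
    (hf : f ∈ space k ω a b) (u : MvPolynomial σ k) (m : ℕ) (h : ℤ) :
    weightedHomogeneousComponent (degWt ω) (m, h) (u * f) =
      if a ≤ m then weightedHomogeneousComponent (degWt ω) (m - a, h - b) u * f else 0 := by
  classical
  induction u using MvPolynomial.induction_on' with
  | monomial μ r =>
    rw [weightedHomogeneousComponent_of_mem
        ((isWeightedHomogeneous_monomial (degWt ω) μ r rfl).mul hf),
      weightedHomogeneousComponent_of_mem (isWeightedHomogeneous_monomial (degWt ω) μ r rfl),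
      weight_degWt, Prod.mk_add_mk]
    by_cases ha : a ≤ m
    · rw [if_pos ha]
      by_cases he : m = μ.degree + a ∧ h = Finsupp.weight ω μ + b
      · rw [if_pos (Prod.ext he.1 he.2),
          if_pos (Prod.ext (show m - a = _ by omega) (show h - b = _ by omega))]
      · rw [if_neg fun e => he ⟨congrArg Prod.fst e, congrArg Prod.snd e⟩, if_neg fun e => he ?_,
          zero_mul]
        exact ⟨by have := congrArg Prod.fst e; simp at this; omega,
          by have := congrArg Prod.snd e; simp at this; omega⟩
    · rw [if_neg ha, if_neg fun e => ha ?_]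
      have := congrArg Prod.fst e
      simp at this
      omega
  | add p q hp hq =>
    rw [add_mul, map_add, hp, hq, map_add]
    split_ifs
    · rw [add_mul]
    · rw [add_zero]

theorem finiteDimensional_space [Finite σ] (ω : σ → ℤ) (m : ℕ) (h : ℤ) :
    FiniteDimensional k (space k ω m h) := by
  classical
  let _ := Fintype.ofFinite σ
  have hle : space k ω m h ≤ restrictSupport k {μ : σ →₀ ℕ | μ.degree = m} := by
    intro p hp
    refine (mem_restrictSupport_iff k).2 fun μ hμ => ?_
    have := hp (mem_support_iff.1 hμ)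
    rw [weight_degWt] at this
    exact congrArg Prod.fst this
  have hfin : ({μ : σ →₀ ℕ | μ.degree = m}).Finite :=
    ((Finset.univ.finsuppAntidiag m).finite_toSet).subset fun μ hμ => Finset.mem_coe.2
      (Finset.mem_finsuppAntidiag.2 ⟨by rw [← Finsupp.degree_eq_sum]; exact hμ,
        Finset.subset_univ _⟩)
  have := hfin.to_subtype
  have : FiniteDimensional k (restrictSupport k {μ : σ →₀ ℕ | μ.degree = m}) :=
    Module.Finite.of_basis (basisRestrictSupport k _)
  exact Submodule.finiteDimensional_of_le hle

namespace Sl2Data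

variable (A : Sl2Data σ k)

theorem D_mem {m : ℕ} {h : ℤ} {p : MvPolynomial σ k} (hp : p ∈ space k A.ω m h) :
    A.D p ∈ space k A.ω m (h + 2) :=
  derivation_mem A.ω A.D 2 A.D_X hp

theorem U_mem {m : ℕ} {h : ℤ} {p : MvPolynomial σ k} (hp : p ∈ space k A.ω m h) :
    A.U p ∈ space k A.ω m (h - 2) := by
  rw [sub_eq_add_neg]
  exact derivation_mem A.ω A.U (-2) (fun v => by rw [← sub_eq_add_neg]; exact A.U_X v) hp

theorem bracket {m : ℕ} {h : ℤ} {p : MvPolynomial σ k} (hp : p ∈ space k A.ω m h) :
    A.D (A.U p) - A.U (A.D p) = (h : k) • p := by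
  have key : ∀ μ : σ →₀ ℕ, ∀ r : k, A.D (A.U (monomial μ r)) - A.U (A.D (monomial μ r)) =
      ((Finsupp.weight A.ω μ : ℤ) : k) • monomial μ r := by
    intro μ
    induction μ using Finsupp.induction with
    | zero =>
      intro r
      simp [← C_apply]
    | single_add i e ν _ _ ih =>
      intro r
      have hpow : ∀ q : ℕ, A.D (A.U (X i ^ q)) - A.U (A.D (X i ^ q)) =
          (((q : ℤ) * A.ω i : ℤ) : k) • X i ^ q := fun q => by
        induction q with
        | zero => simp
        | succ q hq =>
          rw [smul_eq_C_mul] at hq ⊢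
          simp only [pow_succ, Derivation.leibniz, map_add, smul_eq_mul, Int.cast_mul,
            Int.cast_natCast, Int.cast_add, Int.cast_one, Nat.cast_add, Nat.cast_one, map_mul,
            map_natCast, map_one]
            at hq ⊢
          linear_combination (X i) * hq + X i ^ q * A.bracket_X i
      have h1 := ih r
      have h2 := hpow e
      rw [smul_eq_C_mul] at h1 h2 ⊢
      rw [add_comm (Finsupp.single i e), monomial_add_single, map_add, Finsupp.weight_single,
        nsmul_eq_mul, Int.cast_add, map_add]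
      simp only [Derivation.leibniz, map_add, smul_eq_mul]
      linear_combination (X i ^ e) * h1 + monomial ν r * h2
  conv_rhs => rw [p.as_sum, Finset.smul_sum]
  conv_lhs => rw [p.as_sum, map_sum, map_sum, map_sum, map_sum, ← Finset.sum_sub_distrib]
  refine Finset.sum_congr rfl fun μ hμ => ?_
  have hw := hp (mem_support_iff.1 hμ)
  rw [weight_degWt] at hw
  rw [key, show Finsupp.weight A.ω μ = h from congrArg Prod.snd hw]

/-- Exchanging the roles of the derivations. -/
def symm : Sl2Data σ k where
  ω v := -A.ω v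
  D := A.U
  U := A.D
  D_X v := by
    have h := A.U_X v
    intro μ hμ
    have := h hμ
    rw [weight_degWt] at this ⊢
    have e : Finsupp.weight (fun v => -A.ω v) μ = -Finsupp.weight A.ω μ := by
      simp [Finsupp.weight_apply, Finsupp.sum]
    rw [e]
    exact Prod.ext (Prod.ext_iff.1 this).1
      (by have := (Prod.ext_iff.1 this).2; simp only at this ⊢; omega)
  U_X v := by
    have h := A.D_X v
    intro μ hμ
    have := h hμ
    rw [weight_degWt] at this ⊢
    have e : Finsupp.weight (fun v => -A.ω v) μ = -Finsupp.weight A.ω μ := by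
      simp [Finsupp.weight_apply, Finsupp.sum]
    rw [e]
    exact Prod.ext (Prod.ext_iff.1 this).1
      (by have := (Prod.ext_iff.1 this).2; simp only at this ⊢; omega)
  bracket_X v := by
    rw [Int.cast_neg, map_neg, neg_mul, ← A.bracket_X v, neg_sub]

theorem space_symm (m : ℕ) (h : ℤ) :
    space k A.symm.ω m (-h) = space k A.ω m h := by
  ext p
  refine forall₂_congr fun μ _ => ?_
  have e : Finsupp.weight (fun v => -A.ω v) μ = -Finsupp.weight A.ω μ := by
    simp [Finsupp.weight_apply, Finsupp.sum]
  rw [weight_degWt, weight_degWt, Prod.ext_iff, Prod.ext_iff]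
  show _ ∧ Finsupp.weight (fun v => -A.ω v) μ = -h ↔ _
  rw [e, neg_inj]

variable [CharZero k] [Finite σ]

omit [CharZero k] in
theorem exists_bound (m : ℕ) : ∃ B : ℤ, ∀ h : ℤ, B < h → space k A.ω m h = ⊥ := by
  classical
  let _ := Fintype.ofFinite σ
  refine ⟨(m : ℤ) * ∑ v, |A.ω v|, fun h hh => (Submodule.eq_bot_iff _).2 fun p hp => ?_⟩
  rw [p.as_sum]
  refine Finset.sum_eq_zero fun μ hμ => absurd hh (not_lt.2 ?_)
  have hw := hp (mem_support_iff.1 hμ)
  rw [weight_degWt] at hw
  rw [← show Finsupp.weight A.ω μ = h from congrArg Prod.snd hw,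
    ← show μ.degree = m from congrArg Prod.fst hw, Finsupp.degree_eq_sum, Finsupp.weight_apply,
    Finsupp.sum_fintype _ _ (fun v => by simp), Nat.cast_sum, Finset.sum_mul]
  refine Finset.sum_le_sum fun v _ => ?_
  rw [nsmul_eq_mul]
  refine mul_le_mul_of_nonneg_left ((le_abs_self _).trans ?_) (Nat.cast_nonneg _)
  exact Finset.single_le_sum (fun i _ => abs_nonneg (A.ω i)) (Finset.mem_univ v)

/-- In positive weight `D U + c` is injective. -/
theorem eq_zero_of_DU {m : ℕ} : ∀ {h : ℤ}, 0 < h → ∀ (c : ℕ) {x : MvPolynomial σ k},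
    x ∈ space k A.ω m h → A.D (A.U x) + (c : k) • x = 0 → x = 0 := by
  obtain ⟨B, hB⟩ := A.exists_bound m
  suffices H : ∀ (j : ℕ) {h : ℤ}, 0 < h → B < h + j → ∀ (c : ℕ) {x : MvPolynomial σ k},
      x ∈ space k A.ω m h → A.D (A.U x) + (c : k) • x = 0 → x = 0 from
    fun {h} hh c x hx he => H ((B - h).toNat + 1) hh (by omega) c hx he
  intro j
  induction j with
  | zero =>
    intro h _ hBh c x hx _
    rw [hB h (by omega)] at hx
    exact (Submodule.mem_bot k).1 hx
  | succ j ih =>
    intro h hh hBh c x hx he
    have hb := A.bracket hx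
    rw [sub_eq_iff_eq_add] at hb
    rw [hb] at he
    obtain ⟨e, he0, hee⟩ : ∃ e : ℕ, 0 < e ∧ (e : k) = (h : k) + (c : k) := by
      obtain ⟨q, hq⟩ := Int.eq_ofNat_of_zero_le hh.le
      exact ⟨q + c, by omega, by rw [hq]; push_cast; rfl⟩
    have he' : A.U (A.D x) + (e : k) • x = 0 := by
      rw [hee, add_smul, ← he]
      abel
    have h0 : A.D x = 0 := by
      refine ih (by omega) (by omega) e (A.D_mem hx) ?_
      have := congrArg A.D he'
      rwa [map_add, Derivation.map_smul, map_zero] at this
    rw [h0, map_zero, zero_add] at he'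
    exact (smul_eq_zero.1 he').resolve_left (Nat.cast_ne_zero.2 he0.ne')

theorem U_injective {m : ℕ} {h : ℤ} (hh : 0 < h) {x : MvPolynomial σ k}
    (hx : x ∈ space k A.ω m h) (h0 : A.U x = 0) : x = 0 :=
  A.eq_zero_of_DU hh 0 hx (by rw [h0, map_zero, Nat.cast_zero, zero_smul, add_zero])

theorem D_injective {m : ℕ} {h : ℤ} (hh : h < 0) {x : MvPolynomial σ k}
    (hx : x ∈ space k A.ω m h) (h0 : A.D x = 0) : x = 0 :=
  A.symm.U_injective (h := -h) (by omega) (by rwa [A.space_symm]) h0

/-- Weight `0` is the invariants plus the image of `U`. -/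
theorem exists_decomposition {m : ℕ} {x : MvPolynomial σ k} (hx : x ∈ space k A.ω m 0) :
    ∃ z ∈ space k A.ω m 0, ∃ y ∈ space k A.ω m 2, A.D z = 0 ∧ A.U z = 0 ∧ x = z + A.U y := by
  have := finiteDimensional_space (k := k) A.ω m (2 : ℤ)
  set Φ : space k A.ω m 2 →ₗ[k] space k A.ω m 2 :=
    (A.D.toLinearMap ∘ₗ A.U.toLinearMap).restrict fun p hp => by
      have h := A.D_mem (A.U_mem hp)
      rwa [sub_add_cancel] at h
  have hinj : Function.Injective Φ := by
    rw [injective_iff_map_eq_zero]
    intro p hp
    refine Subtype.ext (A.eq_zero_of_DU two_pos 0 p.2 ?_)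
    rw [Nat.cast_zero, zero_smul, add_zero]
    exact congrArg Subtype.val hp
  obtain ⟨y, hy⟩ := LinearMap.injective_iff_surjective.1 hinj ⟨A.D x, by simpa using A.D_mem hx⟩
  have hU : A.U (y : MvPolynomial σ k) ∈ space k A.ω m 0 := by simpa using A.U_mem y.2
  have hz : x - A.U (y : MvPolynomial σ k) ∈ space k A.ω m 0 := sub_mem hx hU
  have hD : A.D (x - A.U (y : MvPolynomial σ k)) = 0 := by
    rw [map_sub, sub_eq_zero]
    exact (congrArg Subtype.val hy).symm
  refine ⟨_, hz, y, y.2, hD, ?_, by rw [sub_add_cancel]⟩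
  refine A.D_injective (h := 0 - 2) (by norm_num) (A.U_mem hz) ?_
  have hb := A.bracket hz
  rw [hD, map_zero, sub_zero, Int.cast_zero, zero_smul] at hb
  exact hb

/-- The invariants. -/
def invAlg : Subalgebra k (MvPolynomial σ k) where
  carrier := {p | A.D p = 0 ∧ A.U p = 0}
  mul_mem' {p q} hp hq := ⟨by rw [Derivation.leibniz, hp.1, hq.1, smul_zero, smul_zero, add_zero],
    by rw [Derivation.leibniz, hp.2, hq.2, smul_zero, smul_zero, add_zero]⟩
  add_mem' {p q} hp hq := ⟨by rw [map_add, hp.1, hq.1, add_zero],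
    by rw [map_add, hp.2, hq.2, add_zero]⟩
  algebraMap_mem' r := ⟨Derivation.map_algebraMap _ r, Derivation.map_algebraMap _ r⟩

omit [CharZero k] [Finite σ] in
theorem component_comm {m : ℕ} {h : ℤ} (p : MvPolynomial σ k) :
    weightedHomogeneousComponent (degWt A.ω) (m, h + 2) (A.D p) =
      A.D (weightedHomogeneousComponent (degWt A.ω) (m, h) p) := by
  classical
  induction p using MvPolynomial.induction_on' with
  | monomial μ r =>
    have hμ : monomial μ r ∈ space k A.ω μ.degree (Finsupp.weight A.ω μ) :=
      isWeightedHomogeneous_monomial _ _ _ (weight_degWt _ _)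
    rw [weightedHomogeneousComponent_of_mem (A.D_mem hμ), weightedHomogeneousComponent_of_mem hμ]
    by_cases he : m = μ.degree ∧ h = Finsupp.weight A.ω μ
    · rw [if_pos (Prod.ext he.1 (by simp [he.2])), if_pos (Prod.ext he.1 he.2)]
    · rw [if_neg fun e => he ⟨congrArg Prod.fst e, by simpa using congrArg Prod.snd e⟩,
        if_neg fun e => he ⟨congrArg Prod.fst e, congrArg Prod.snd e⟩, map_zero]
  | add p q hp hq => simp only [map_add, hp, hq]

omit [CharZero k] [Finite σ] in
theorem D_component {p : MvPolynomial σ k} (hp : A.D p = 0) (m : ℕ) (h : ℤ) :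
    A.D (weightedHomogeneousComponent (degWt A.ω) (m, h) p) = 0 := by
  rw [← A.component_comm, hp, map_zero]

omit [CharZero k] [Finite σ] in
theorem U_component {p : MvPolynomial σ k} (hp : A.U p = 0) (m : ℕ) (h : ℤ) :
    A.U (weightedHomogeneousComponent (degWt A.ω) (m, h) p) = 0 := by
  classical
  have e : weightedHomogeneousComponent (degWt A.ω) (m, h) p =
      weightedHomogeneousComponent (degWt A.symm.ω) (m, -h) p := by
    ext μ
    have e2 : Finsupp.weight (fun v => -A.ω v) μ = -Finsupp.weight A.ω μ := by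
      simp [Finsupp.weight_apply, Finsupp.sum]
    rw [coeff_weightedHomogeneousComponent, coeff_weightedHomogeneousComponent]
    refine if_congr ?_ rfl rfl
    rw [weight_degWt, weight_degWt, Prod.ext_iff, Prod.ext_iff]
    show _ ↔ _ ∧ Finsupp.weight (fun v => -A.ω v) μ = -h
    rw [e2, neg_inj]
  rw [e]
  exact A.symm.D_component hp m (-h)

omit [Finite σ] in
theorem weight_zero_of_invariant {m : ℕ} {h : ℤ} (hh : h ≠ 0) {p : MvPolynomial σ k}
    (hp : p ∈ space k A.ω m h) (hD : A.D p = 0) (hU : A.U p = 0) : p = 0 := by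
  have := A.bracket hp
  rw [hD, hU, map_zero, map_zero, sub_zero] at this
  exact (smul_eq_zero.1 this.symm).resolve_left (Int.cast_ne_zero.2 hh)

/-- **Hilbert's finiteness argument.** -/
theorem invAlg_fg : A.invAlg.FG := by
  classical
  set T := {f : MvPolynomial σ k | f ∈ A.invAlg ∧ ∃ a, 0 < a ∧ f ∈ space k A.ω a 0}
  obtain ⟨s, hsT, hspan⟩ := (Submodule.fg_span_iff_fg_span_finset_subset T).1
    (IsNoetherian.noetherian (Ideal.span T))
  refine ⟨s, le_antisymm (Algebra.adjoin_le fun f hf => (hsT hf).1) ?_⟩
  have key : ∀ (e : ℕ) (p : MvPolynomial σ k), p ∈ A.invAlg → p ∈ space k A.ω e 0 →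
      p ∈ Algebra.adjoin k (↑s : Set (MvPolynomial σ k)) := by
    intro e
    induction e using Nat.strong_induction_on with
    | _ e ih =>
      intro p hp hpe
      rcases Nat.eq_zero_or_pos e with he | he
      · have hC : p = C (coeff 0 p) := by
          ext μ
          rw [coeff_C]
          split_ifs with h0
          · rw [← h0]
          · by_contra hc
            have hw := hpe hc
            rw [weight_degWt, Prod.ext_iff] at hw
            exact h0 ((Finsupp.degree_eq_zero_iff μ).1 (hw.1.trans he)).symm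
        rw [hC]
        exact Subalgebra.algebraMap_mem _ _
      have hmem : p ∈ Ideal.span (↑s : Set (MvPolynomial σ k)) :=
        hspan.le (Ideal.subset_span ⟨hp, e, he, hpe⟩)
      obtain ⟨u, -, hu⟩ := Submodule.mem_span_finset.1 hmem
      choose a ha0 hafs using fun f : {f // f ∈ s} => (hsT f.2).2
      have hdec : ∀ f : {f // f ∈ s}, ∃ z : MvPolynomial σ k, ∃ y : MvPolynomial σ k,
          (z ∈ A.invAlg ∧ z ∈ Algebra.adjoin k (↑s : Set (MvPolynomial σ k))) ∧
            y * f.1 ∈ space k A.ω e 2 ∧
            weightedHomogeneousComponent (degWt A.ω) (e, 0) (u f.1 * f.1) =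
              z * f.1 + A.U (y * f.1) := by
        intro f
        rw [component_mul_right A.ω (hafs f)]
        split_ifs with hle
        · obtain ⟨z, hz, y, hy, hDz, hUz, hxy⟩ := A.exists_decomposition
            (m := e - a f) (x := weightedHomogeneousComponent (degWt A.ω) (e - a f, 0) (u f.1))
            (weightedHomogeneousComponent_isWeightedHomogeneous _ _)
          refine ⟨z, y, ⟨⟨hDz, hUz⟩, ih _ (by have := ha0 f; omega) z ⟨hDz, hUz⟩ hz⟩, ?_, ?_⟩
          · have := IsWeightedHomogeneous.mul hy (hafs f)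
            rwa [Prod.mk_add_mk, add_zero, Nat.sub_add_cancel hle] at this
          · rw [sub_zero, hxy, Derivation.leibniz, (hsT f.2).1.2, smul_zero, zero_add, smul_eq_mul]
            ring
        · exact ⟨0, 0, ⟨zero_mem _, zero_mem _⟩, by rw [zero_mul]; exact zero_mem _, by simp⟩
      choose z y hz hy hzy using hdec
      have hp' : p = ∑ f, z f * f.1 + A.U (∑ f, y f * f.1) := by
        conv_lhs => rw [← weightedHomogeneousComponent_eq_self hpe, ← hu, map_sum,
          ← Finset.sum_coe_sort]
        rw [map_sum A.U, ← Finset.sum_add_distrib]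
        exact Finset.sum_congr rfl fun f _ => by rw [smul_eq_mul, hzy f]
      have hz1 : ∑ f, z f * f.1 ∈ A.invAlg := sum_mem fun f _ => mul_mem (hz f).1 (hsT f.2).1
      have hDU : A.D (A.U (∑ f, y f * f.1)) = 0 := by
        have := hp.1
        rwa [hp', map_add, hz1.1, zero_add] at this
      have h0 : ∑ f, y f * f.1 = 0 := by
        refine A.eq_zero_of_DU two_pos 0 (sum_mem fun f _ => hy f) ?_
        rw [hDU, Nat.cast_zero, zero_smul, add_zero]
      rw [hp', h0, map_zero, add_zero]
      exact sum_mem fun f _ => mul_mem (hz f).2 (Algebra.subset_adjoin f.2)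
  intro p hp
  rw [← finsum_weightedHomogeneousComponent (degWt A.ω) p]
  refine finsum_induction _ (zero_mem _) (fun x y hx hy => add_mem hx hy) fun w => ?_
  obtain ⟨m, h⟩ := w
  rcases eq_or_ne h 0 with rfl | hh
  · exact key m _ ⟨A.D_component hp.1 m 0, A.U_component hp.2 m 0⟩
      (weightedHomogeneousComponent_isWeightedHomogeneous _ _)
  · rw [A.weight_zero_of_invariant hh
      (weightedHomogeneousComponent_isWeightedHomogeneous _ _)
      (A.D_component hp.1 m h) (A.U_component hp.2 m h)]
    exact zero_mem _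

end Sl2Data

end FA.Gordan
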