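import Fermat.Agent.CayleySylvester.Substitution
import Fermat.Agent.Gordan.Sl2

/-!
# Systems of binary forms

The operators of Cayley on each form of a system make the coefficients an `sl₂`; invariance under
the substitutions of determinant one is to be killed by both.
-/

set_option autoImplicit false

noncomputable section

open MvPolynomial

namespace FA.Gordan

open FA.CayleySylvester

variable {ι : Type*} {k : Type*} [Field k]

/-- The coefficients of a system of forms of degrees `d a`. -/
abbrev Var (d : ι → ℕ) : Type _ := (a : ι) × Fin (d a + 1)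

variable (d : ι → ℕ)

/-- The substitution on the coefficients. -/
def substSys (g : Matrix (Fin 2) (Fin 2) k) (c : Var d → k) : Var d → k :=
  fun v => subst g (fun l => c ⟨v.1, l⟩) v.2

variable (k) in
/-- Cayley's operator on a system. -/
def sysLower : Derivation k (MvPolynomial (Var d) k) (MvPolynomial (Var d) k) :=
  mkDerivation k fun v => rename (Sigma.mk v.1) (lower (d v.1) k (X v.2))

variable (k) in
/-- The opposite operator on a system. -/
def sysRaise : Derivation k (MvPolynomial (Var d) k) (MvPolynomial (Var d) k) :=
  mkDerivation k fun v => rename (Sigma.mk v.1) (raise (d v.1) k (X v.2))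

/-- Exchange of the two variables. -/
def sysFlip : MvPolynomial (Var d) k →ₐ[k] MvPolynomial (Var d) k :=
  rename fun v => ⟨v.1, v.2.rev⟩

theorem sysFlip_sysFlip (p : MvPolynomial (Var d) k) : sysFlip d (sysFlip d p) = p := by
  rw [sysFlip, rename_rename]
  conv_rhs => rw [← rename_id_apply p]
  refine congrArg (fun f => rename f p) (funext fun v => ?_)
  simp

theorem sysLower_rename (a : ι) (p : MvPolynomial (Fin (d a + 1)) k) :
    sysLower k d (rename (Sigma.mk a) p) = rename (Sigma.mk a) (lower (d a) k p) := by
  induction p using MvPolynomial.induction_on with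
  | C r => simp
  | add p q hp hq => simp only [map_add, hp, hq]
  | mul_X p i hp =>
    rw [map_mul, rename_X, Derivation.leibniz, hp, sysLower, mkDerivation_X, Derivation.leibniz,
      smul_eq_mul, smul_eq_mul, smul_eq_mul, smul_eq_mul, map_add, map_mul, map_mul, rename_X]

theorem sysRaise_rename (a : ι) (p : MvPolynomial (Fin (d a + 1)) k) :
    sysRaise k d (rename (Sigma.mk a) p) = rename (Sigma.mk a) (raise (d a) k p) := by
  induction p using MvPolynomial.induction_on with
  | C r => simp
  | add p q hp hq => simp only [map_add, hp, hq]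
  | mul_X p i hp =>
    rw [map_mul, rename_X, Derivation.leibniz, hp, sysRaise, mkDerivation_X, Derivation.leibniz,
      smul_eq_mul, smul_eq_mul, smul_eq_mul, smul_eq_mul, map_add, map_mul, map_mul, rename_X]

theorem sysRaise_eq (p : MvPolynomial (Var d) k) :
    sysRaise k d p = sysFlip d (sysLower k d (sysFlip d p)) := by
  induction p using MvPolynomial.induction_on with
  | C r => simp [sysFlip]
  | add p q hp hq => simp only [map_add, hp, hq]
  | mul_X p v hp =>
    have hX : sysRaise k d (X v) = sysFlip d (sysLower k d (sysFlip d (X v))) := by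
      rw [sysRaise, sysFlip, mkDerivation_X, rename_X, sysLower, mkDerivation_X, raise_eq, flip_X,
        FA.CayleySylvester.flip, rename_rename, rename_rename]
      rfl
    rw [Derivation.leibniz, map_mul, Derivation.leibniz, map_add, hp, hX, smul_eq_mul, smul_eq_mul,
      smul_eq_mul, smul_eq_mul, map_mul, map_mul, sysFlip_sysFlip, sysFlip_sysFlip]

variable (k) in
/-- The `sl₂` of a system. -/
def systemData : Sl2Data (Var d) k where
  ω v := (d v.1 : ℤ) - 2 * (v.2 : ℕ)
  D := sysLower k d
  U := sysRaise k d
  D_X v := by
    rw [sysLower, mkDerivation_X, lower_X]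
    split_ifs with h
    · rw [map_zero]
      exact zero_mem _
    · rw [map_mul, rename_C, rename_X, mem_space_iff]
      refine IsWeightedHomogeneous.C_mul ?_ _
      convert! isWeightedHomogeneous_X (R := k) _ (⟨v.1, prevIdx v.2⟩ : Var d) using 1
      simp only [degWt, coe_prevIdx, Prod.ext_iff, true_and]
      omega
  U_X v := by
    rw [sysRaise, mkDerivation_X, raise_X]
    split_ifs with h
    · rw [map_mul, rename_C, rename_X, mem_space_iff]
      refine IsWeightedHomogeneous.C_mul ?_ _
      convert! isWeightedHomogeneous_X (R := k) _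
        (⟨v.1, ⟨(v.2 : ℕ) + 1, by omega⟩⟩ : Var d) using 1
      simp only [degWt, Prod.ext_iff, true_and]
      push_cast
      omega
    · rw [map_zero]
      exact zero_mem _
  bracket_X v := by
    conv_lhs => rw [sysRaise, mkDerivation_X, ← sysRaise]
    rw [sysLower_rename, show sysLower k d (X v) = rename (Sigma.mk v.1) (lower (d v.1) k (X v.2))
      from mkDerivation_X _ _ _, sysRaise_rename, ← map_sub, bracket, weightOp, mkDerivation_X,
      map_mul, rename_C, rename_X]
    push_cast
    rfl

variable (k) in
/-- The coefficients along `x ↦ x + t y`. -/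
def sysFlow : MvPolynomial (Var d) k →ₐ[k] Polynomial (MvPolynomial (Var d) k) :=
  aeval fun v => (flow (d v.1) k (X v.2)).map (rename (Sigma.mk v.1)).toRingHom

theorem sysFlow_rename (a : ι) (p : MvPolynomial (Fin (d a + 1)) k) :
    sysFlow k d (rename (Sigma.mk a) p) = (flow (d a) k p).map (rename (Sigma.mk a)).toRingHom := by
  induction p using MvPolynomial.induction_on with
  | C r =>
    simp only [sysFlow, flow, rename_C, aeval_C, Polynomial.algebraMap_apply, Polynomial.map_C]
    exact congrArg Polynomial.C (rename_C _ _).symm
  | add p q hp hq => simp only [map_add, hp, hq, Polynomial.map_add]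
  | mul_X p i hp =>
    rw [map_mul, map_mul, hp, rename_X, map_mul, Polynomial.map_mul, sysFlow, aeval_X]

theorem derivative_sysFlow (p : MvPolynomial (Var d) k) :
    Polynomial.derivative (sysFlow k d p) = sysFlow k d (sysLower k d p) := by
  induction p using MvPolynomial.induction_on with
  | C a =>
    rw [derivation_C, map_zero, sysFlow, aeval_C]
    exact Polynomial.derivative_C
  | add p q hp hq => simp only [map_add, hp, hq]
  | mul_X p v hp =>
    have hX : Polynomial.derivative (sysFlow k d (X v)) = sysFlow k d (sysLower k d (X v)) := by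
      rw [show sysLower k d (X v) = rename (Sigma.mk v.1) (lower (d v.1) k (X v.2)) from
        mkDerivation_X _ _ _, sysFlow_rename, ← derivative_flow, ← Polynomial.derivative_map,
        sysFlow, aeval_X]
    rw [map_mul, Polynomial.derivative_mul, hp, hX, Derivation.leibniz, map_add, smul_eq_mul,
      smul_eq_mul, map_mul, map_mul]
    ring

theorem eval₂_sysFlow (t : k) (c : Var d → k) (p : MvPolynomial (Var d) k) :
    (sysFlow k d p).eval₂ (eval c) t = eval (substSys d (shear t) c) p := by
  induction p using MvPolynomial.induction_on with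
  | C a =>
    rw [sysFlow, aeval_C, eval_C]
    exact (Polynomial.eval₂_C _ _).trans (eval_C a)
  | add p q hp hq => simp only [map_add, Polynomial.eval₂_add, hp, hq]
  | mul_X p v hp =>
    rw [map_mul, Polynomial.eval₂_mul, hp, map_mul, eval_X]
    refine congrArg (eval (substSys d (shear t) c) p * ·) ?_
    have h := eval₂_flow t (fun l => c ⟨v.1, l⟩) (X v.2 : MvPolynomial (Fin (d v.1 + 1)) k)
    rw [eval_X] at h
    rw [sysFlow, aeval_X, Polynomial.eval₂_map, substSys, ← h]
    congr 1
    refine ringHom_ext (fun r => ?_) fun l => ?_ <;> simp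

theorem substSys_one (c : Var d → k) : substSys d 1 c = c := by
  funext v
  rw [substSys, subst_one]

theorem substSys_mul (g h : Matrix (Fin 2) (Fin 2) k) (c : Var d → k) :
    substSys d (g * h) c = substSys d g (substSys d h c) := by
  funext v
  rw [substSys, subst_mul]
  rfl

theorem eval_substSys_swap (c : Var d → k) (p : MvPolynomial (Var d) k) :
    eval (substSys d swapMat c) p = eval c (sysFlip d p) := by
  rw [sysFlip, eval_rename]
  refine congrArg (fun f => eval f p) (funext fun v => ?_)
  rw [substSys, subst_swap]
  rfl

theorem eval₂_sysFlow_zero (c : Var d → k) (p : MvPolynomial (Var d) k) :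
    (sysFlow k d p).eval₂ (eval c) 0 = eval c p := by
  rw [eval₂_sysFlow,
    show (shear (0 : k)) = 1 by ext i j; fin_cases i <;> fin_cases j <;> simp [shear],
    substSys_one]

variable [CharZero k]

/-- **Invariance under `x ↦ x + t y`.** -/
theorem invariant_shear_iff_sys (p : MvPolynomial (Var d) k) :
    (∀ t c, eval (substSys d (shear t) c) p = eval c p) ↔ sysLower k d p = 0 := by
  constructor
  · intro h
    refine MvPolynomial.funext fun c => ?_
    have h1 : (sysFlow k d p).map (eval c) = Polynomial.C (eval c p) :=
      Polynomial.funext fun t => by rw [Polynomial.eval_map, eval₂_sysFlow, h, Polynomial.eval_C]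
    rw [map_zero, ← eval₂_sysFlow_zero d c (sysLower k d p), ← derivative_sysFlow,
      ← Polynomial.eval_map, ← Polynomial.derivative_map, h1, Polynomial.derivative_C,
      Polynomial.eval_zero]
  · intro h t c
    have h1 : Polynomial.derivative (sysFlow k d p) = 0 := by rw [derivative_sysFlow, h, map_zero]
    rw [← eval₂_sysFlow, ← eval₂_sysFlow_zero d c p, Polynomial.eq_C_of_derivative_eq_zero h1,
      Polynomial.eval₂_C, Polynomial.eval₂_C]

/-- **Invariance under `SL₂`.** -/
theorem invariant_iff_sys (p : MvPolynomial (Var d) k) :
    (∀ g : Matrix (Fin 2) (Fin 2) k, g.det = 1 → ∀ c, eval (substSys d g c) p = eval c p) ↔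
      p ∈ (systemData k d).invAlg := by
  have hup : ∀ (t : k) c, eval (substSys d (!![1, t; 0, 1]) c) p =
      eval (substSys d (shear t) (substSys d swapMat c)) (sysFlip d p) := fun t c => by
    rw [decompose_upper, substSys_mul, substSys_mul, eval_substSys_swap]
  have hswap : ∀ c : Var d → k, eval (substSys d swapMat c) (sysFlip d p) = eval c p := fun c => by
    rw [eval_substSys_swap, sysFlip_sysFlip]
  constructor
  · intro h
    refine ⟨(invariant_shear_iff_sys d p).1 fun t c =>
      h _ (by simp [shear, Matrix.det_fin_two]) c, ?_⟩
    show sysRaise k d p = 0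
    rw [sysRaise_eq, (invariant_shear_iff_sys d (sysFlip d p)).1 fun t c => ?_, map_zero]
    have h1 := h (!![1, t; 0, 1]) (by simp [Matrix.det_fin_two]) (substSys d swapMat c)
    rw [hup, ← substSys_mul d swapMat swapMat,
      show (swapMat * swapMat : Matrix (Fin 2) (Fin 2) k) = 1 by
        ext i j; fin_cases i <;> fin_cases j <;> simp [swapMat, Matrix.mul_apply, Fin.sum_univ_two],
      eval_substSys_swap] at h1
    rwa [substSys_one] at h1
  · rintro ⟨hl, hr⟩
    have hl' := (invariant_shear_iff_sys d p).2 hl
    have hr' : sysLower k d (sysFlip d p) = 0 := by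
      rw [← sysFlip_sysFlip d (sysLower k d (sysFlip d p)), ← sysRaise_eq]
      exact (congrArg (sysFlip d) hr).trans (map_zero _)
    have hu : ∀ (t : k) c, eval (substSys d (!![1, t; 0, 1]) c) p = eval c p := fun t c => by
      rw [hup, (invariant_shear_iff_sys d (sysFlip d p)).2 hr', hswap]
    have hne : ∀ g : Matrix (Fin 2) (Fin 2) k, g.det = 1 → g 1 0 ≠ 0 →
        ∀ c, eval (substSys d g c) p = eval c p := by
      intro g hg hc c
      have e : g = !![1, (g 0 0 - 1) / g 1 0; 0, 1] * shear (g 1 0) *
          !![1, (g 1 1 - 1) / g 1 0; 0, 1] := by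
        rw [Matrix.det_fin_two] at hg
        ext i j
        fin_cases i <;> fin_cases j <;>
          simp [shear, Matrix.mul_apply, Fin.sum_univ_two] <;> field_simp <;>
            first | linear_combination -hg | linear_combination hg | linear_combination
      rw [e, substSys_mul, substSys_mul, hu, hl', hu]
    intro g hg c
    by_cases hc : g 1 0 = 0
    · have hg' : (shear 1 * g).det = 1 := by
        rw [Matrix.det_mul, hg, mul_one]
        simp [shear, Matrix.det_fin_two]
      have h00 : g 0 0 ≠ 0 := fun h => one_ne_zero (α := k) (by
        rw [← hg, Matrix.det_fin_two, h, hc]; ring)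
      have h1 := hne _ hg' (by simp [shear, Matrix.mul_apply, Fin.sum_univ_two, hc, h00]) c
      rwa [substSys_mul, hl'] at h1
    · exact hne g hg hc c

end FA.Gordan
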