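import Fermat.Agent.CayleySylvester.Substitution
import Mathlib.RingTheory.Adjoin.Polynomial.Basic

/-!
# The invariants of a quadratic form

An invariant has weight zero, so at `(a, 0, c)` it depends only on `a c`; completing the square
makes it a polynomial in the discriminant.
-/

set_option autoImplicit false

noncomputable section

open MvPolynomial

namespace FA.Gordan

open FA.CayleySylvester

variable {k : Type*} [Field k]

variable (k) in
/-- The discriminant `b² - 4 a c`. -/
def disc : MvPolynomial (Fin 3) k :=
  X 1 ^ 2 - C 4 * X 0 * X 2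

theorem lower_disc : lower 2 k (disc k) = 0 := by
  simp [disc, Derivation.leibniz, Derivation.leibniz_pow, lower_X, prevIdx]
  rw [show (C (4 : k) : MvPolynomial (Fin 3) k) = 4 from map_ofNat C 4,
    show (C (2 : k) : MvPolynomial (Fin 3) k) = 2 from map_ofNat C 2]
  ring

theorem raise_disc : raise 2 k (disc k) = 0 := by
  simp [disc, Derivation.leibniz, Derivation.leibniz_pow, raise_X]
  rw [show (C (4 : k) : MvPolynomial (Fin 3) k) = 4 from map_ofNat C 4,
    show (C (2 : k) : MvPolynomial (Fin 3) k) = 2 from map_ofNat C 2]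
  ring

variable [CharZero k]

/-- **The invariants of a quadratic form.** -/
theorem quadratic_invariant_iff (P : MvPolynomial (Fin 3) k) :
    (lower 2 k P = 0 ∧ raise 2 k P = 0) ↔ P ∈ Algebra.adjoin k {disc k} := by
  constructor
  swap
  · intro hP
    induction hP using Algebra.adjoin_induction with
    | mem x hx =>
      rw [Set.mem_singleton_iff.1 hx]
      exact ⟨lower_disc, raise_disc⟩
    | algebraMap r => exact ⟨Derivation.map_algebraMap _ r, Derivation.map_algebraMap _ r⟩
    | add x y _ _ hx hy =>
      exact ⟨by rw [map_add, hx.1, hy.1, add_zero], by rw [map_add, hx.2, hy.2, add_zero]⟩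
    | mul x y _ _ hx hy =>
      exact ⟨by rw [Derivation.leibniz, hx.1, hy.1, smul_zero, smul_zero, add_zero],
        by rw [Derivation.leibniz, hx.2, hy.2, smul_zero, smul_zero, add_zero]⟩
  intro hP
  have hwt : ∀ μ ∈ P.support, μ 0 = μ 2 := by
    intro μ hμ
    have h1 : weightOp 2 k P = 0 := by rw [← bracket, hP.2, hP.1, map_zero, map_zero, sub_zero]
    rw [P.as_sum, map_sum, Finset.sum_congr rfl fun ν _ => weightOp_monomial ν (coeff ν P)] at h1
    have h2 := congrArg (coeff μ) h1
    rw [coeff_sum, Finset.sum_eq_single μ (fun ν _ hν => by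
        rw [coeff_smul, coeff_monomial, if_neg hν, smul_zero]) (fun h => absurd hμ h), coeff_smul,
      coeff_monomial, if_pos rfl, coeff_zero, smul_eq_zero] at h2
    have h3 := h2.resolve_right (mem_support_iff.1 hμ)
    rw [Finsupp.degree_eq_sum, wt_eq_sum, Fin.sum_univ_three, Fin.sum_univ_three] at h3
    have h4 : ((2 * μ 0 : ℕ) : k) = ((2 * μ 2 : ℕ) : k) := by
      push_cast at h3 ⊢
      simp at h3
      linear_combination h3
    have := Nat.cast_injective h4
    omega
  set G : Polynomial k := P.eval₂ Polynomial.C ![1, 0, Polynomial.C (-(4 : k)⁻¹) * Polynomial.X]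
  suffices h : P = Polynomial.aeval (disc k) G by
    rw [h]
    exact Polynomial.aeval_mem_adjoin_singleton k _
  have key : (P - Polynomial.aeval (disc k) G) * X 0 = 0 := by
    refine MvPolynomial.funext fun c => ?_
    rw [map_mul, eval_X, map_zero, mul_eq_zero, map_sub, sub_eq_zero]
    by_cases hc : c 0 = 0
    · exact Or.inr hc
    left
    have hsh := (invariant_shear_iff P).2 hP.1 (-c 1 / (2 * c 0)) c
    have hsub : subst (shear (-c 1 / (2 * c 0))) c =
        ![c 0, 0, -(c 1 ^ 2 - 4 * c 0 * c 2) / (4 * c 0)] := by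
      funext i
      rw [subst_shear, Fin.sum_univ_three]
      fin_cases i <;> simp <;> field_simp <;> ring
    have hG : eval c (Polynomial.aeval (disc k) G) = Polynomial.eval (eval c (disc k)) G := by
      rw [Polynomial.aeval_def, Polynomial.hom_eval₂]
      congr 1
      exact RingHom.ext fun r => eval_C r
    rw [← hsh, hsub, hG, ← Polynomial.coe_evalRingHom]
    simp only [G]
    rw [← coe_eval₂Hom, ← RingHom.comp_apply, comp_eval₂Hom]
    have hC : (Polynomial.evalRingHom (eval c (disc k))).comp Polynomial.C = RingHom.id k :=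
      RingHom.ext fun r => Polynomial.eval_C
    rw [hC]
    show eval _ P = eval _ P
    rw [eval_eq' _ P, eval_eq' _ P]
    refine Finset.sum_congr rfl fun μ hμ => ?_
    rw [Fin.prod_univ_three, Fin.prod_univ_three, hwt μ hμ]
    simp [disc]
    left
    rw [show -((4 : k)⁻¹ * (c 1 ^ 2 - 4 * c 0 * c 2)) =
      c 0 * ((4 * c 0 * c 2 - c 1 ^ 2) / (4 * c 0)) by field_simp; ring, mul_pow]
    ring
  exact sub_eq_zero.1 ((mul_eq_zero.1 key).resolve_right (X_ne_zero 0))

end FA.Gordan
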